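import Fermat.Agent.S16.Defs
import Fermat.Agent.S20.C0_helper516

/-!
# S16 helper (helper556): basic q-expansion API for `MF (Gamma0 N) k`
-/

set_option autoImplicit false

noncomputable section

namespace Fermat.Agent.S16.H556

open UpperHalfPlane ModularForm CongruenceSubgroup MatrixGroups ModularFormClass
open Fermat.Agent.S20 (MF SF)
open scoped Manifold

theorem analyticAt_of_mem_MF {N : ℕ} [NeZero N] {k : ℤ} {G : ℍ → ℂ} (hG : G ∈ MF (Gamma0 N) k) :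
    AnalyticAt ℂ (cuspFunction 1 G) 0 := by
  obtain ⟨g, rfl⟩ := Fermat.Agent.S20.C0h516.mem_MF_iff_exists.mp hG
  have h1 : (1 : ℝ) ∈ (Gamma0 N : Subgroup (GL (Fin 2) ℝ)).strictPeriods := by
    simp [CongruenceSubgroup.strictPeriods_Gamma0]
  exact ModularFormClass.analyticAt_cuspFunction_zero g one_pos h1

theorem qCoeff_smul {N : ℕ} [NeZero N] {k : ℤ} {G : ℍ → ℂ} (hG : G ∈ MF (Gamma0 N) k)
    (c : ℂ) (n : ℕ) : qCoeff (c • G) n = c * qCoeff G n := by
  unfold qCoeff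
  rw [qExpansion_smul (analyticAt_of_mem_MF hG) c]
  simp

theorem qCoeff_add {N : ℕ} [NeZero N] {k : ℤ} {G H : ℍ → ℂ} (hG : G ∈ MF (Gamma0 N) k)
    (hH : H ∈ MF (Gamma0 N) k) (n : ℕ) : qCoeff (G + H) n = qCoeff G n + qCoeff H n := by
  unfold qCoeff
  rw [qExpansion_add (analyticAt_of_mem_MF hG) (analyticAt_of_mem_MF hH)]
  simp

theorem qCoeff_sub {N : ℕ} [NeZero N] {k : ℤ} {G H : ℍ → ℂ} (hG : G ∈ MF (Gamma0 N) k)
    (hH : H ∈ MF (Gamma0 N) k) (n : ℕ) : qCoeff (G - H) n = qCoeff G n - qCoeff H n := by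
  have h := qCoeff_add hG ((MF (Gamma0 N) k).smul_mem (-1 : ℂ) hH) n
  rw [qCoeff_smul hH] at h
  have e : G - H = G + (-1 : ℂ) • H := by
    ext z; simp [sub_eq_add_neg]
  rw [e, h]; ring

end Fermat.Agent.S16.H556
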