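import Fermat.Agent.S16.Interface
import Fermat.Agent.S16.H556.Basic

/-!
# S16 WP UB (helper556): arithmetic assembly of the upper bound

`upperBound_of`: from the denominator statements U0, U2, U4 to `UpperBound p`.
-/

set_option autoImplicit false

noncomputable section

namespace Fermat.Agent.S16.H556

open UpperHalfPlane ModularForm CongruenceSubgroup MatrixGroups ModularFormClass
open Fermat.Agent.S20 (MF SF)
open scoped Manifold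

theorem gcd_mod_twelve (a : ℕ) : Nat.gcd a 12 = Nat.gcd (a % 12) 12 := by
  rw [Nat.gcd_comm, Nat.gcd_rec]

/-- The arithmetic core: `t ∣ 24`, `3 ∣ t → 3 ∣ p+1`, `4 ∣ t → 4 ∣ p+1`, `¬ 8 ∣ t`
imply `t * gcd (p-1) 12 ∣ 24`. -/
theorem den_mul_gcd_dvd (p t : ℕ) (hp : p.Prime) (hp5 : 5 ≤ p) (ht : t ∣ 24)
    (h3 : 3 ∣ t → 3 ∣ p + 1) (h4 : 4 ∣ t → 4 ∣ p + 1) (h8 : ¬ 8 ∣ t) :
    t * Nat.gcd (p - 1) 12 ∣ 24 := by
  have h2p : ¬ 2 ∣ p := fun h => by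
    have := (Nat.prime_dvd_prime_iff_eq Nat.prime_two hp).mp h; omega
  have h3p : ¬ 3 ∣ p := fun h => by
    have := (Nat.prime_dvd_prime_iff_eq Nat.prime_three hp).mp h; omega
  have htpos : 0 < t := Nat.pos_of_dvd_of_pos ht (by norm_num)
  have htle : t ≤ 24 := Nat.le_of_dvd (by norm_num) ht
  rw [gcd_mod_twelve]
  have hmod : (p - 1) % 12 = 0 ∨ (p - 1) % 12 = 4 ∨ (p - 1) % 12 = 6 ∨ (p - 1) % 12 = 10 := by
    omega
  interval_cases t <;> first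
    | (exfalso; revert ht; decide)
    | (exfalso; apply h8; decide)
    | (rcases hmod with h | h | h | h <;> rw [h] <;> first
        | decide
        | (exfalso; have := h3 (by decide); omega)
        | (exfalso; have := h4 (by decide); omega))

theorem upperBound_of (p : ℕ) [Fact p.Prime] (hp5 : 5 ≤ p)
    (hU0 : ∀ G ∈ MF (Gamma0 p) 2, IntFrom1 G →
      ∃ r : ℚ, qCoeff G 0 = (r : ℂ) ∧
        ∀ ℓ : ℕ, ℓ.Prime → ℓ ≠ p → ∀ a : ℕ, ℓ ^ a ∣ r.den → ℓ ^ a ∣ p + 1)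
    (hU2 : ∀ G ∈ MF (Gamma0 p) 2, ∀ (ℓ : ℕ), ℓ.Prime → ∀ (a : ℕ) (s : ℤ), ¬ (ℓ : ℤ) ∣ s →
      qCoeff G 0 = (s : ℂ) →
      (∀ k : ℕ, 1 ≤ k → ∃ m : ℤ, qCoeff G k = ((ℓ : ℂ) ^ a) * (m : ℂ)) → ℓ ^ a ∣ 24)
    (hU4 : p % 8 = 7 → ∀ G ∈ MF (Gamma0 p) 2, ∀ s : ℤ, Odd s → qCoeff G 0 = (s : ℂ) →
      (∀ k : ℕ, 1 ≤ k → ∃ m : ℤ, qCoeff G k = 8 * (m : ℂ)) → False) :
    UpperBound p := by
  have hp : p.Prime := Fact.out
  haveI : NeZero p := ⟨hp.ne_zero⟩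
  intro G hG hint
  obtain ⟨r, hr0, hden⟩ := hU0 G hG hint
  set t : ℕ := r.den with ht
  set s : ℤ := r.num with hs
  have htpos : 0 < t := r.den_pos
  have hcop : Nat.Coprime s.natAbs t := r.reduced
  -- the scaled form
  have hG' : ((t : ℂ) • G) ∈ MF (Gamma0 p) 2 := (MF (Gamma0 p) 2).smul_mem _ hG
  have h0' : qCoeff ((t : ℂ) • G) 0 = (s : ℂ) := by
    rw [qCoeff_smul hG, hr0]
    have h := Rat.den_mul_eq_num r
    have h2 : ((r.den : ℚ) : ℂ) * (r : ℂ) = ((r.num : ℚ) : ℂ) := by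
      rw [← Rat.cast_mul, h]
    simpa using h2
  -- divisibility of higher coefficients by any divisor of t
  have hk' : ∀ d : ℕ, d ∣ t → ∀ k : ℕ, 1 ≤ k →
      ∃ m : ℤ, qCoeff ((t : ℂ) • G) k = (d : ℂ) * (m : ℂ) := by
    rintro d ⟨e, he⟩ k hk
    obtain ⟨m, hm⟩ := hint k hk
    refine ⟨(e : ℤ) * m, ?_⟩
    rw [qCoeff_smul hG, hm, he]
    push_cast
    ring
  -- a prime dividing t does not divide s
  have hnd : ∀ ℓ : ℕ, ℓ.Prime → ℓ ∣ t → ¬ (ℓ : ℤ) ∣ s := by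
    intro ℓ hℓ hℓt hℓs
    have h1 : ℓ ∣ s.natAbs := Int.natCast_dvd.mp hℓs
    have := Nat.dvd_gcd h1 hℓt
    rw [hcop] at this
    exact hℓ.one_lt.ne' (Nat.dvd_one.mp this)
  -- t ∣ 24
  have ht24 : t ∣ 24 := by
    rw [Nat.dvd_iff_prime_pow_dvd_dvd]
    intro ℓ a hℓ hℓa
    rcases Nat.eq_zero_or_pos a with rfl | ha
    · simp
    have hℓt : ℓ ∣ t := (dvd_pow_self ℓ ha.ne').trans hℓa
    refine hU2 _ hG' ℓ hℓ a s (hnd ℓ hℓ hℓt) h0' fun k hk => ?_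
    obtain ⟨m, hm⟩ := hk' (ℓ ^ a) hℓa k hk
    exact ⟨m, by rw [hm]; push_cast; ring⟩
  have h3 : 3 ∣ t → 3 ∣ p + 1 := fun h =>
    by simpa using hden 3 Nat.prime_three (by omega) 1 (by simpa using h)
  have h4 : 4 ∣ t → 4 ∣ p + 1 := fun h =>
    by simpa using hden 2 Nat.prime_two (by omega) 2 (by simpa using h)
  have h8 : ¬ 8 ∣ t := by
    intro h
    have h8p : 8 ∣ p + 1 := by simpa using hden 2 Nat.prime_two (by omega) 3 (by simpa using h)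
    have hp8 : p % 8 = 7 := by omega
    have hsodd : Odd s := by
      rw [← Int.not_even_iff_odd]
      intro he
      exact hnd 2 Nat.prime_two ((by decide : 2 ∣ 8).trans h) (by simpa using he.two_dvd)
    refine hU4 hp8 _ hG' s hsodd h0' fun k hk => ?_
    obtain ⟨m, hm⟩ := hk' 8 h k hk
    exact ⟨m, by rw [hm]; push_cast; ring⟩
  obtain ⟨u, hu⟩ := den_mul_gcd_dvd p t hp hp5 ht24 h3 h4 h8
  refine ⟨(u : ℤ) * s, ?_⟩
  have ht0 : (t : ℂ) ≠ 0 := by exact_mod_cast htpos.ne'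
  have hc0 : qCoeff G 0 = (s : ℂ) / (t : ℂ) := by
    rw [eq_div_iff ht0, mul_comm, ← qCoeff_smul hG, h0']
  have h24 : (24 : ℂ) = (t : ℂ) * (Nat.gcd (p - 1) 12 : ℂ) * (u : ℂ) := by
    exact_mod_cast congrArg (Nat.cast : ℕ → ℂ) hu
  rw [hc0, h24]
  push_cast
  field_simp

end Fermat.Agent.S16.H556
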